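/-
PROGRAMME III (S48, Deligne–Serre), block (W-CONJ) (helper20): A PRIMITIVE ELEMENT OF `Γ₁(M)` AND THE
`Aut(ℂ)`-CONJUGATES OF CUSP FORMS ON `Γ₁(N)` IN EVERY WEIGHT.

* `tateG_stabiliser` : for `M ≥ 3` the stabiliser in `SL₂(ℤ)` of the Tate–Eisenstein series
  `G_{3,1} = tateG M 3 1` is exactly `Γ₁(M)` (comparison of the constant terms of the translates at the
  cusps `S∞` and `(1 0; 1 1)⁻¹∞`, `TateEis/ConstTerm`);
* `primV M = c₃⁻¹ • G_{3,1} : ModularForm (Gamma1 M) 3`, `q`-expansion `tateP M 3 1 ∈ ℤ[[q]]`;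
* `exists_primitive_Gamma1` : the `Γ₁(M)`-analogue of `S23.exists_primitive`;
* `cuspForm_conj_Gamma1 (N) (k : ℤ) σ f : ∃ f' : CuspForm (Gamma1 N) k, S23.IsConj σ f f'`
  (`N ≥ 3` by `S23.cuspForm_conj_of_primitive`; `N ≤ 2`: `Γ₁(N) = Γ₀(N)` and `S23.exists_primitive`).
-/
import Mathlib
import Fermat.Agent.S23.Conj
import Fermat.Agent.S23.PrimElt
import Fermat.Agent.DS.TateEis.QExp
import Fermat.Agent.DS.TateEis.ConstTerm

set_option autoImplicit false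

namespace Fermat.Agent.DS.W2Z

open EisensteinSeries CongruenceSubgroup ModularForm Filter Complex Fermat.Agent.DS.TateEis
open UpperHalfPlane hiding I
open scoped MatrixGroups Matrix Real Nat Topology Manifold

variable {M : ℕ}

/-- The second entry of `(δ mod M) *ᵥ w`. -/
theorem mulVec_one (δ : SL(2, ℤ)) (w : Fin 2 → ZMod M) :
    ((redSL M δ).1 *ᵥ w) 1 = ((δ.1 1 0 : ℤ) : ZMod M) * w 0 + ((δ.1 1 1 : ℤ) : ZMod M) * w 1 := by
  simp [Matrix.mulVec, dotProduct, Fin.sum_univ_two, redSL_apply]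

/-- Equality of two translates forces equality of all constant terms. -/
theorem constTerm_eq_of_latG_eq {k : ℤ} (hk : 3 ≤ k) (w w' : Fin 2 → ZMod M) (a : ZMod M)
    (h : latG M (tateSet M w a) k = latG M (tateSet M w' a) k) (δ : SL(2, ℤ)) :
    constTerm M k (((redSL M δ).1 *ᵥ w) 1) a = constTerm M k (((redSL M δ).1 *ᵥ w') 1) a := by
  have h1 : latG M (tateSet M w a) k ∣[k] δ⁻¹ = latG M (tateSet M w' a) k ∣[k] δ⁻¹ := by rw [h]
  rw [latG_slash, latG_slash, actSet_tateSet, actSet_tateSet, inv_inv] at h1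
  have l1 := latG_tateSet_tendsto_imAx ((redSL M δ).1 *ᵥ w) a hk
  have l2 := latG_tateSet_tendsto_imAx ((redSL M δ).1 *ᵥ w') a hk
  rw [h1] at l1
  exact tendsto_nhds_unique l1 l2

/-- The matrix `(1 0; 1 1)`. -/
def lowerOne : SL(2, ℤ) := ⟨!![1, 0; 1, 1], by simp [Matrix.det_fin_two_of]⟩

/-- THE STABILISER of `G_{3,1}` is `Γ₁(M)`, `M ≥ 3`. -/
theorem tateG_stabiliser [NeZero M] (hM : 3 ≤ M) (γ : SL(2, ℤ))
    (h : ⇑(tateG M (k := 3) (le_refl _) (1 : ZMod M)) ∣[(3 : ℤ)] γ =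
      ⇑(tateG M (k := 3) (le_refl _) (1 : ZMod M))) : γ ∈ Gamma1 M := by
  set w : Fin 2 → ZMod M := (redSL M γ⁻¹).1 *ᵥ e₁ M with hw
  have hlat : latG M (tateSet M w 1) 3 = latG M (tateSet M (e₁ M) 1) 3 := by
    rw [hw, ← tateG_slash (le_refl _), h, coe_tateG]
  have key := constTerm_eq_of_latG_eq (le_refl _) w (e₁ M) 1 hlat
  have hodd : Odd 3 := by decide
  -- the cusp `S∞`
  have k1 := key ModularGroup.S
  rw [mulVec_one, mulVec_one] at k1
  have hS10 : (ModularGroup.S.1 1 0 : ℤ) = 1 := by simp [ModularGroup.S]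
  have hS11 : (ModularGroup.S.1 1 1 : ℤ) = 0 := by simp [ModularGroup.S]
  have he0 : e₁ M 0 = 1 := by simp [e₁]
  have he1 : e₁ M 1 = 0 := by simp [e₁]
  rw [hS10, hS11, he0, he1] at k1
  simp only [Int.cast_one, Int.cast_zero, one_mul, zero_mul, add_zero, mul_one, mul_zero] at k1
  have hw0 : w 0 = 1 :=
    eq_one_of_constTerm_eq (k := 3) hM (by norm_num) hodd (by exact_mod_cast k1)
  -- the cusp of `(1 0; 1 1)`
  have k2 := key lowerOne
  rw [mulVec_one, mulVec_one] at k2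
  have hL10 : (lowerOne.1 1 0 : ℤ) = 1 := by simp [lowerOne]
  have hL11 : (lowerOne.1 1 1 : ℤ) = 1 := by simp [lowerOne]
  rw [hL10, hL11, he0, he1, hw0] at k2
  simp only [Int.cast_one, one_mul, mul_one, mul_zero, add_zero] at k2
  have hw1' : 1 + w 1 = 1 :=
    eq_one_of_constTerm_eq (k := 3) hM (by norm_num) hodd (by exact_mod_cast k2)
  have hw1 : w 1 = 0 := by
    have := congrArg (fun x => x - 1) hw1'
    simpa using this
  -- conclusion
  rw [hw, mulVec_e₁] at hw0 hw1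
  simp only [Matrix.cons_val_zero, Matrix.cons_val_one] at hw0 hw1
  have hdet : (γ⁻¹).1 0 0 * (γ⁻¹).1 1 1 - (γ⁻¹).1 0 1 * (γ⁻¹).1 1 0 = 1 := by
    have := (γ⁻¹).det_coe
    rwa [Matrix.det_fin_two] at this
  have hdet' := congrArg (fun x : ℤ => (x : ZMod M)) hdet
  simp only [Int.cast_sub, Int.cast_mul, Int.cast_one] at hdet'
  rw [hw0, hw1] at hdet'
  have h11 : (((γ⁻¹).1 1 1 : ℤ) : ZMod M) = 1 := by simpa using hdet'
  have hmem : γ⁻¹ ∈ Gamma1 M := (Gamma1_mem M γ⁻¹).mpr ⟨hw0, h11, hw1⟩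
  exact (Gamma1 M).inv_mem_iff.mp hmem

/-- The normalised primitive element `c₃⁻¹ • G_{3,1}`. -/
noncomputable def primV (M : ℕ) [NeZero M] : ModularForm (Gamma1 M) 3 :=
  (lipC 3)⁻¹ • tateG M (k := 3) (le_refl _) (1 : ZMod M)

theorem coe_primV (M : ℕ) [NeZero M] :
    ⇑(primV M) = (lipC 3)⁻¹ • ⇑(tateG M (k := 3) (le_refl _) (1 : ZMod M)) := rfl

theorem isNice_Gamma1 [NeZero M] {k : ℤ} (f : ModularForm (Gamma1 M) k) : S23.IsNice (f : ℍ → ℂ) :=
  S23.isNice_of_modularForm (one_mem_strictPeriods_Gamma1 M) f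

/-- The `q`-expansion of `primV M` is the INTEGRAL series `tateP M 3 1`, `M ≥ 2`. -/
theorem primV_qExpansion [NeZero M] (hM : 2 ≤ M) :
    qExpansion 1 (primV M) = (tateP M 3 1).map (Int.castRingHom ℂ) := by
  have : Fact (1 < M) := ⟨by omega⟩
  rw [coe_primV, (isNice_Gamma1 _).qExpansion_smul]
  have h := tateG_qExpansion_of_ne_zero (M := M) (k := 3) (le_refl _) (one_ne_zero (α := ZMod M))
  have h' : qExpansion 1 (tateG M (k := 3) (le_refl _) (1 : ZMod M)) =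
      PowerSeries.C (lipC 3) * (tateP M 3 1).map (Int.castRingHom ℂ) := h
  rw [h', PowerSeries.smul_eq_C_mul, ← mul_assoc, ← map_mul, inv_mul_cancel₀ (lipC_ne_zero 3), map_one,
    one_mul]

theorem primV_qExpansion_int [NeZero M] (hM : 2 ≤ M) (n : ℕ) :
    ∃ m : ℤ, (qExpansion 1 (primV M)).coeff n = m :=
  ⟨(tateP M 3 1).coeff n, by rw [primV_qExpansion hM]; simp⟩

/-- The stabiliser of `primV M` in `SL₂(ℤ)` is `Γ₁(M)`, `M ≥ 3`. -/
theorem primV_stabiliser [NeZero M] (hM : 3 ≤ M) (γ : SL(2, ℤ))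
    (h : (primV M : ℍ → ℂ) ∣[(3 : ℤ)] γ = primV M) : γ ∈ Gamma1 M := by
  apply tateG_stabiliser hM γ
  rw [coe_primV, ModularForm.SL_smul_slash] at h
  have hc : (lipC 3)⁻¹ ≠ 0 := inv_ne_zero (lipC_ne_zero 3)
  funext z
  have := congrFun h z
  simp only [Pi.smul_apply, smul_eq_mul] at this
  exact mul_left_cancel₀ hc this

/-- A weight-3 form on `Γ₁(M)`, `M ≥ 3`, with integer `q`-expansion, all of whose non-trivial
`SL₂(ℤ)`-conjugates are different from it. -/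
theorem exists_primitive_Gamma1 (M : ℕ) [NeZero M] (hM : 3 ≤ M) :
    ∃ u : ModularForm (Gamma1 M) 3,
      (∀ n, ∃ m : ℤ, (qExpansion 1 u).coeff n = m) ∧
      ∀ q : 𝒮ℒ ⧸ ((Gamma1 M : Subgroup SL(2, ℤ)) : Subgroup (GL (Fin 2) ℝ)).subgroupOf 𝒮ℒ,
        q ≠ QuotientGroup.mk 1 → S23.conjFam u q ≠ ⇑u := by
  refine ⟨primV M, primV_qExpansion_int (by omega), ?_⟩
  intro q hq hconj
  apply hq
  induction q using Quotient.inductionOn with
  | h r =>
    obtain ⟨r, γ, rfl⟩ := r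
    have hslash : (primV M : ℍ → ℂ) ∣[(3 : ℤ)] (γ⁻¹ : SL(2, ℤ)) = primV M := by
      rw [ModularForm.SL_slash]
      have := hconj
      change (primV M : ℍ → ℂ) ∣[(3 : ℤ)] (Matrix.SpecialLinearGroup.mapGL ℝ γ)⁻¹ = _ at this
      rw [← map_inv] at this
      exact this
    have hmem := primV_stabiliser hM γ⁻¹ hslash
    change (QuotientGroup.mk _ : 𝒮ℒ ⧸ _) = QuotientGroup.mk 1
    rw [QuotientGroup.eq, Subgroup.mem_subgroupOf]
    refine ⟨γ⁻¹, hmem, ?_⟩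
    simp

theorem Gamma1_le_SL (N : ℕ) :
    ((Gamma1 N : Subgroup SL(2, ℤ)) : Subgroup (GL (Fin 2) ℝ)) ≤ 𝒮ℒ := by
  rintro _ ⟨γ, _, rfl⟩
  exact ⟨γ, rfl⟩

/-- `Γ₁(N) = Γ₀(N)` for `N = 1, 2`. -/
theorem Gamma1_eq_Gamma0_of_le_two {N : ℕ} [NeZero N] (hN : N ≤ 2) : Gamma1 N = Gamma0 N := by
  apply le_antisymm
  · intro γ hγ
    rw [Gamma1_mem] at hγ
    exact Gamma0_mem.mpr hγ.2.2
  · intro γ hγ
    have h10 : ((γ.1 1 0 : ℤ) : ZMod N) = 0 := Gamma0_mem.mp hγ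
    have hdet : γ.1 0 0 * γ.1 1 1 - γ.1 0 1 * γ.1 1 0 = 1 := by
      have := γ.det_coe
      rwa [Matrix.det_fin_two] at this
    have hdet' := congrArg (fun x : ℤ => (x : ZMod N)) hdet
    simp only [Int.cast_sub, Int.cast_mul, Int.cast_one] at hdet'
    rw [h10, mul_zero, sub_zero] at hdet'
    rw [Gamma1_mem]
    have hN0 : N ≠ 0 := NeZero.ne N
    have hcases : N = 1 ∨ N = 2 := by omega
    rcases hcases with rfl | rfl
    · exact ⟨Subsingleton.elim _ _, Subsingleton.elim _ _, h10⟩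
    · have key : ∀ a d : ZMod 2, a * d = 1 → a = 1 ∧ d = 1 := by decide
      obtain ⟨ha, hd⟩ := key _ _ hdet'
      exact ⟨ha, hd, h10⟩

/-- `S_k(Γ₁(N))` IS STABLE UNDER THE COEFFICIENTWISE ACTION OF `Aut(ℂ)` ON `q`-EXPANSIONS, every weight
`k : ℤ` (in particular `k = 1`) and every level `N ≥ 1`. -/
theorem cuspForm_conj_Gamma1 (N : ℕ) [NeZero N] (k : ℤ) (σ : ℂ ≃+* ℂ)
    (f : CuspForm (Gamma1 N) k) : ∃ f' : CuspForm (Gamma1 N) k, S23.IsConj σ f f' := by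
  by_cases hN : 3 ≤ N
  · obtain ⟨u, hint, hprim⟩ := exists_primitive_Gamma1 N hN
    have huσ : S23.IsConj σ u u := by
      apply S23.isConj_self_of_fixed
      intro n
      obtain ⟨m, hm⟩ := hint n
      rw [hm]
      simp
    exact S23.cuspForm_conj_of_primitive (Gamma1_le_SL N) (one_mem_strictPeriods_Gamma1 N) u hprim
      σ huσ f
  · have hN2 : N ≤ 2 := by omega
    have hG := Gamma1_eq_Gamma0_of_le_two hN2
    revert f
    rw [hG]
    intro f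
    obtain ⟨u, hint, hprim⟩ := S23.exists_primitive N
    have h𝒢 : ((Gamma0 N : Subgroup SL(2, ℤ)) : Subgroup (GL (Fin 2) ℝ)) ≤ 𝒮ℒ := by
      rintro _ ⟨γ, _, rfl⟩
      exact ⟨γ, rfl⟩
    have h1 := CongruenceSubgroup.one_mem_strictPeriods_Gamma0 N
    have huσ : S23.IsConj σ u u := by
      apply S23.isConj_self_of_fixed
      intro n
      obtain ⟨m, hm⟩ := hint n
      rw [hm]
      simp
    exact S23.cuspForm_conj_of_primitive h𝒢 h1 u hprim σ huσ f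

end Fermat.Agent.DS.W2Z
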